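import Fermat.Agent.Small7.FermatSeven
import Fermat.Prelude.Def_FLTPrelim_CofixedLine

/-!
# No Frey package of exponent 7
-/

set_option autoImplicit false

open WeierstrassCurve.Affine.Point

namespace Fermat.Agent.Small7

theorem freyPackage_p_ne_seven (P : FreyPackage) : P.p ≠ 7 := fun hp =>
  fermat_seven P.ha0 P.hb0 P.hc0 (hp ▸ P.hFLT)

theorem noCofixed7 (P : FreyPackage) (hp : P.p = 7) :
    ¬ HasGaloisStableCofixedLine (K := AlgebraicClosure ℚ) ℚ P.freyCurve P.p :=
  (freyPackage_p_ne_seven P hp).elim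

end Fermat.Agent.Small7
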