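import Mathlib.Tactic.LinearCombination
import Mathlib.Tactic.Ring
import Mathlib.Tactic.Positivity
import Mathlib.Tactic.FieldSimp
import Mathlib.Data.ZMod.Basic
import Mathlib.RingTheory.Int.Basic
import Mathlib.Data.Rat.Lemmas
import Mathlib.Tactic.NormNum.Prime

/-!
# Fermat's Last Theorem for exponent 7

Genocchi's identity reduces the exponent 7 to the statement that the elliptic curve
`y² = x (x² - 147 x + 5488)` has no rational point with `x ≠ 0`, which we prove by descent.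
-/

set_option autoImplicit false

namespace Fermat.Agent.Small7

/-! ### Elementary lemmas -/

lemma prime_seven : Prime (7 : ℤ) := Nat.prime_iff_prime_int.mp (by norm_num)


lemma prime_dvd_seven {r : ℤ} (hr : Prime r) (h : r ∣ 7) : (7 : ℤ) ∣ r :=
  (hr.associated_of_dvd prime_seven h).symm.dvd

lemma prime_dvd_two {r : ℤ} (hr : Prime r) (h : r ∣ 2) : (2 : ℤ) ∣ r :=
  (hr.associated_of_dvd Int.prime_two h).symm.dvd

lemma not_prime_both {a b r : ℤ} (hab : IsCoprime a b) (hr : Prime r) (h1 : r ∣ a)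
    (h2 : r ∣ b) : False :=
  hr.not_isUnit (hab.isUnit_of_dvd' h1 h2)

lemma eq_sq_of_mul {A B k : ℤ} (hA : 0 ≤ A) (hAB : IsCoprime A B) (h : A * B = k ^ 2) :
    ∃ u, A = u ^ 2 := by
  obtain ⟨d, hd⟩ := exists_associated_pow_of_mul_eq_pow' hAB h
  refine ⟨d, ?_⟩
  rcases Int.associated_iff.mp hd with h' | h'
  · exact h'.symm
  · nlinarith [sq_nonneg d]

lemma eq_pow_four_of_mul {A B k : ℤ} (hA : 0 ≤ A) (hAB : IsCoprime A B) (h : A * B = k ^ 4) :
    ∃ u, A = u ^ 4 := by
  obtain ⟨d, hd⟩ := exists_associated_pow_of_mul_eq_pow' hAB h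
  refine ⟨d, ?_⟩
  rcases Int.associated_iff.mp hd with h' | h'
  · exact h'.symm
  · nlinarith [sq_nonneg (d ^ 2)]

/-- A coprime positive factorisation of `343 k ^ 4`. -/
lemma split_343 {A B k : ℤ} (hA : 0 < A) (hB : 0 < B) (hAB : IsCoprime A B)
    (h : A * B = 343 * k ^ 4) :
    ∃ r s : ℤ, (r * s).natAbs = k.natAbs ∧
      ((A = r ^ 4 ∧ B = 343 * s ^ 4) ∨ (A = 343 * s ^ 4 ∧ B = r ^ 4)) := by
  have h343 : (343 : ℤ) = 7 ^ 3 := by norm_num
  have h7 : Prime (7 : ℤ) := prime_seven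
  wlog hB7 : (7 : ℤ) ∣ B generalizing A B with H
  · have hA7 : (7 : ℤ) ∣ A := by
      have : (7 : ℤ) ∣ A * B := ⟨49 * k ^ 4, by rw [h]; ring⟩
      exact (h7.dvd_or_dvd this).resolve_right hB7
    obtain ⟨r, s, hk, h' | h'⟩ := H hB hA hAB.symm (by rw [mul_comm]; exact h) hA7
    · exact ⟨r, s, hk, Or.inr ⟨h'.2, h'.1⟩⟩
    · exact ⟨r, s, hk, Or.inl ⟨h'.2, h'.1⟩⟩
  have hA7 : IsCoprime (7 : ℤ) A := by
    obtain ⟨c, rfl⟩ := hB7
    exact hAB.of_mul_right_left.symm
  have : (343 : ℤ) ∣ B := by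
    rw [h343]
    exact hA7.pow_left.dvd_of_dvd_mul_left ⟨k ^ 4, by rw [h, h343]⟩
  obtain ⟨B', rfl⟩ := this
  have h' : A * B' = k ^ 4 := by linarith
  have hc : IsCoprime A B' := hAB.of_mul_right_right
  obtain ⟨r, hr⟩ := eq_pow_four_of_mul hA.le hc h'
  obtain ⟨s, hs⟩ := eq_pow_four_of_mul (by omega) hc.symm (by rw [mul_comm]; exact h')
  refine ⟨r, s, ?_, Or.inl ⟨hr, by rw [hs]⟩⟩
  have e : ((r * s).natAbs : ℤ) ^ 4 = (k.natAbs : ℤ) ^ 4 := by
    rw [Int.natCast_natAbs, Int.natCast_natAbs, ← abs_pow, ← abs_pow, ← h', hr, hs, mul_pow]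
  exact_mod_cast (pow_left_inj₀ (by positivity) (by positivity) (by norm_num : (4:ℕ) ≠ 0)).mp e

lemma dvd_343_mul {r k : ℤ} (hr : Prime r) (h : r ∣ 343 * k ^ 4) :
    r ∣ k ∨ (7 : ℤ) ∣ r := by
  rcases hr.dvd_or_dvd h with h | h
  · refine Or.inr (prime_dvd_seven hr (hr.dvd_of_dvd_pow (n := 3) ?_))
    norm_num
    exact h
  · exact Or.inl (hr.dvd_of_dvd_pow h)

/-! ### The descent -/

/-- The middle step: a point on the isogenous quartic gives a smaller point on the first one. -/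
lemma descent_step {p q Z : ℤ} (hpq : IsCoprime p q) (hp : ¬(7 : ℤ) ∣ p) (hq : q ≠ 0)
    (h : Z ^ 2 = p ^ 4 + 294 * p ^ 2 * q ^ 2 - 343 * q ^ 4) :
    (∃ r s : ℤ, Odd r ∧ Odd s ∧ (r * s).natAbs = q.natAbs ∧
        IsCoprime r s ∧ ¬(7 : ℤ) ∣ r ∧ p ^ 2 = 4 * r ^ 4 - 147 * r ^ 2 * s ^ 2 + 1372 * s ^ 4) ∨
      (∃ a b C : ℤ, ¬(Odd p ∧ Odd q) ∧ b.natAbs ≤ 2 * q.natAbs ∧ b ≠ 0 ∧ IsCoprime a b ∧ ¬(7 : ℤ) ∣ a ∧
        C ^ 2 = 4 * a ^ 4 - 147 * a ^ 2 * b ^ 2 + 1372 * b ^ 4) := by
  wlog hZ : 0 ≤ Z generalizing Z with H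
  · exact H (Z := -Z) (by rw [neg_sq]; exact h) (by omega)
  have hp0 : p ≠ 0 := fun e => hp (by simp [e])
  set U := p ^ 2 + 147 * q ^ 2 with hU
  have hUpos : 0 < U := by positivity
  have key : (U - Z) * (U + Z) = 64 * (343 * q ^ 4) := by linear_combination -h
  have hqpos : 0 < q ^ 4 := by positivity
  have hlt : Z < U := by nlinarith
  -- common odd prime divisors of `U` and `343 q ^ 4`
  have hcop : ∀ r : ℤ, Prime r → r ∣ U → r ∣ 343 * q ^ 4 → False := by
    intro r hr h1 h2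
    rcases dvd_343_mul hr h2 with h2 | h2
    · refine not_prime_both hpq hr (hr.dvd_of_dvd_pow (n := 2) ?_) h2
      have : r ∣ 147 * q ^ 2 := dvd_mul_of_dvd_right (dvd_pow h2 two_ne_zero) _
      simpa [hU] using dvd_sub h1 this
    · refine hp (prime_seven.dvd_of_dvd_pow (n := 2) ?_)
      have h7 : (7 : ℤ) ∣ 147 * q ^ 2 := dvd_mul_of_dvd_left (by norm_num) _
      simpa [hU] using dvd_sub (h2.trans h1) h7
  rcases Int.even_or_odd U with ⟨U1, hU1⟩ | hUodd
  · -- `p`, `q` odd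
    have hodd : Odd p ∧ Odd q := by
      have hb : ¬((2 : ℤ) ∣ p ∧ (2 : ℤ) ∣ q) := fun hh => not_prime_both hpq Int.prime_two hh.1 hh.2
      have hev : Even (p ^ 2 + 147 * q ^ 2) := ⟨U1, hU1⟩
      simp [Int.even_add, Int.even_mul, Int.even_pow, show ¬ Even (147:ℤ) by decide] at hev
      rcases Int.even_or_odd p with hp2 | hp2
      · exact absurd ⟨hp2.two_dvd, (hev.mp hp2).two_dvd⟩ hb
      · refine ⟨hp2, Int.not_even_iff_odd.mp fun hq2 => ?_⟩
        exact (Int.not_even_iff_odd.mpr hp2) (hev.mpr hq2)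
    obtain ⟨⟨p1, hp1⟩, q1, hq1⟩ := hodd
    obtain ⟨U', hU', hU'odd⟩ : ∃ U', U = 4 * U' ∧ Odd U' := by
      obtain ⟨i, hi⟩ := Int.even_mul_succ_self p1
      obtain ⟨j, hj⟩ := Int.even_mul_succ_self q1
      refine ⟨2 * i + 294 * j + 37, ?_, ⟨i + 147 * j + 18, by ring⟩⟩
      rw [hU, hp1, hq1]; linear_combination 4 * hi + 4 * 147 * hj
    obtain ⟨Z', hZ'⟩ : (4 : ℤ) ∣ Z := by
      refine (Int.pow_dvd_pow_iff two_ne_zero).mp ⟨U' ^ 2 - 4 * (343 * q ^ 4), ?_⟩
      rw [hU'] at key; linear_combination -key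
    have key' : (U' - Z') * (U' + Z') = 4 * (343 * q ^ 4) := by
      rw [hU', hZ'] at key; linarith
    have hZ'odd : Odd Z' := by
      have : Even ((U' - Z') * (U' + Z')) := ⟨2 * (343 * q ^ 4), by rw [key']; ring⟩
      simp [Int.even_mul, Int.even_add, Int.even_sub, Int.not_even_iff_odd.mpr hU'odd] at this
      exact this
    obtain ⟨A, hA⟩ : Even (U' - Z') := hU'odd.sub_odd hZ'odd
    have hB : U' + Z' = 2 * (U' - A) := by omega
    have hAB : A * (U' - A) = 343 * q ^ 4 := by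
      rw [hA, hB] at key'; linarith
    have hc : IsCoprime A (U' - A) := by
      refine isCoprime_of_prime_dvd (by omega) fun r hr h1 h2 => hcop r hr ?_ ?_
      · rw [hU']; exact dvd_mul_of_dvd_right (by simpa using dvd_add h1 h2) _
      · rw [← hAB]; exact dvd_mul_of_dvd_left h1 _
    obtain ⟨r, s, hrs, hor⟩ := split_343 (by omega) (by omega) hc hAB
    have hsum : U' = r ^ 4 + 343 * s ^ 4 := by rcases hor with h' | h' <;> omega
    have hq2 : q ^ 2 = (r * s) ^ 2 := by
      rcases Int.natAbs_eq_natAbs_iff.mp hrs with e | e <;> simp [e]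
    have hodd2 : Odd (r * s) := by
      rw [← Int.natAbs_odd, hrs, Int.natAbs_odd]; exact ⟨q1, hq1⟩
    left
    refine ⟨r, s, (Int.odd_mul.mp hodd2).1, (Int.odd_mul.mp hodd2).2, hrs, ?_, ?_, ?_⟩
    · rcases hor with h' | h'
      · rw [h'.2, h'.1] at hc
        exact (IsCoprime.pow_iff (by norm_num) (by norm_num)).mp hc.of_mul_right_right
      · rw [h'.2, h'.1] at hc
        exact (IsCoprime.pow_iff (by norm_num) (by norm_num)).mp hc.of_mul_left_right.symm
    · intro h7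
      refine prime_seven.not_isUnit ?_
      rcases hor with h' | h'
      · exact hc.isUnit_of_dvd' (h'.1 ▸ dvd_pow h7 (by norm_num))
          (h'.2 ▸ dvd_mul_of_dvd_left (by norm_num) _)
      · exact hc.isUnit_of_dvd' (h'.1 ▸ dvd_mul_of_dvd_left (by norm_num) _)
          (h'.2 ▸ dvd_pow h7 (by norm_num))
    · linear_combination -hU + hU' + 4 * hsum - 147 * hq2
  · -- exactly one of `p`, `q` is even
    have hZodd : Odd Z := by
      have : Even ((U - Z) * (U + Z)) := ⟨32 * (343 * q ^ 4), by rw [key]; ring⟩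
      simp [Int.even_mul, Int.even_add, Int.even_sub, Int.not_even_iff_odd.mpr hUodd] at this
      exact this
    obtain ⟨A, hA⟩ : Even (U - Z) := hUodd.sub_odd hZodd
    have hB : U + Z = 2 * (U - A) := by omega
    have hAB : A * (U - A) = 16 * (343 * q ^ 4) := by rw [hA, hB] at key; linarith
    have hc : IsCoprime A (U - A) := by
      refine isCoprime_of_prime_dvd (by omega) fun r hr h1 h2 => ?_
      have hrU : r ∣ U := by simpa using dvd_add h1 h2
      have : r ∣ 16 * (343 * q ^ 4) := by rw [← hAB]; exact dvd_mul_of_dvd_left h1 _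
      rcases hr.dvd_or_dvd this with h' | h'
      · have : r ∣ 2 := hr.dvd_of_dvd_pow (n := 4) (by norm_num; exact h')
        exact Int.not_even_iff_odd.mpr hUodd (even_iff_two_dvd.mpr ((prime_dvd_two hr this).trans hrU))
      · exact hcop r hr hrU h'
    obtain ⟨A', B', hc', hA', hB', hA'B', hsum⟩ : ∃ A' B' : ℤ, IsCoprime A' B' ∧ 0 < A' ∧ 0 < B' ∧
        A' * B' = 343 * q ^ 4 ∧ (U = 16 * A' + B' ∨ U = A' + 16 * B') := by
      have h16 : (16 : ℤ) = 2 ^ 4 := by norm_num
      have h2 : (2 : ℤ) ∣ A * (U - A) := ⟨8 * (343 * q ^ 4), by rw [hAB]; ring⟩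
      rcases Int.prime_two.dvd_or_dvd h2 with ⟨c, hc2⟩ | ⟨c, hc2⟩
      · have : IsCoprime (2 : ℤ) (U - A) := hc.of_isCoprime_of_dvd_left ⟨c, hc2⟩
        obtain ⟨A', hA'⟩ : (16 : ℤ) ∣ A := by
          rw [h16]; exact this.pow_left.dvd_of_dvd_mul_right ⟨343 * q ^ 4, by rw [hAB, h16]⟩
        refine ⟨A', U - A, ?_, by omega, by omega, ?_, Or.inl (by omega)⟩
        · rw [hA'] at hc ⊢; exact hc.of_mul_left_right
        · rw [hA'] at hAB ⊢; linarith
      · have : IsCoprime (2 : ℤ) A := hc.symm.of_isCoprime_of_dvd_left ⟨c, hc2⟩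
        obtain ⟨B', hB'⟩ : (16 : ℤ) ∣ U - A := by
          rw [h16]; exact this.pow_left.dvd_of_dvd_mul_left ⟨343 * q ^ 4, by rw [hAB, h16]⟩
        refine ⟨A, B', ?_, by omega, by omega, ?_, Or.inr (by omega)⟩
        · rw [hB'] at hc; exact hc.of_mul_right_right
        · rw [hB'] at hAB; linarith
    obtain ⟨r, s, hrs, hor⟩ := split_343 hA' hB' hc' hA'B'
    have hq2 : q ^ 2 = (r * s) ^ 2 := by
      rcases Int.natAbs_eq_natAbs_iff.mp hrs with e | e <;> simp [e]
    have hs0 : s ≠ 0 := by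
      rintro rfl; simp at hrs; omega
    have hr0 : r.natAbs ≠ 0 := by
      intro e; rw [Int.natAbs_mul, e, zero_mul] at hrs; omega
    have hsle : s.natAbs ≤ q.natAbs := by
      rw [← hrs, Int.natAbs_mul]; exact Nat.le_mul_of_pos_left _ (Nat.pos_of_ne_zero hr0)
    have hrs' : IsCoprime r s ∧ ¬(7 : ℤ) ∣ r := by
      have hc2 : IsCoprime (r ^ 4) (343 * s ^ 4) := by
        rcases hor with h' | h'
        · rw [h'.2, h'.1] at hc'; exact hc'
        · rw [h'.2, h'.1] at hc'; exact hc'.symm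
      refine ⟨(IsCoprime.pow_iff (by norm_num) (by norm_num)).mp hc2.of_mul_right_right,
        fun h7 => prime_seven.not_isUnit ?_⟩
      exact hc2.isUnit_of_dvd' (dvd_pow h7 (by norm_num)) (dvd_mul_of_dvd_left (by norm_num) _)
    have hU2 : U = 16 * r ^ 4 + 343 * s ^ 4 ∨ U = r ^ 4 + 16 * (343 * s ^ 4) := by
      rcases hor with h' | h' <;> omega
    have hnodd : ¬(Odd p ∧ Odd q) := by
      rintro ⟨h1, h2⟩
      exact Int.not_even_iff_odd.mpr hUodd
        (Odd.add_odd h1.pow ((show Odd (147:ℤ) by decide).mul h2.pow))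
    right
    rcases hU2 with e | e
    · have hs2 : ¬ (2:ℤ) ∣ s := by
        intro ⟨t, ht⟩
        exact Int.not_even_iff_odd.mpr hUodd ⟨8 * r ^ 4 + 343 * 8 * t ^ 4, by rw [e, ht]; ring⟩
      refine ⟨2 * r, s, 2 * p, hnodd, by omega, hs0, ?_, ?_, ?_⟩
      · exact ((Int.prime_two.coprime_iff_not_dvd).mpr hs2).mul_left hrs'.1
      · exact fun h7 => hrs'.2 ((prime_seven.dvd_or_dvd h7).resolve_left (by norm_num))
      · linear_combination -4 * hU + 4 * e - 588 * hq2
    · have hr2 : ¬ (2:ℤ) ∣ r := by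
        intro ⟨t, ht⟩
        exact Int.not_even_iff_odd.mpr hUodd ⟨8 * t ^ 4 + 343 * 8 * s ^ 4, by rw [e, ht]; ring⟩
      refine ⟨r, 2 * s, 2 * p, hnodd, ?_, by omega, ?_, hrs'.2, ?_⟩
      · rw [Int.natAbs_mul]; show 2 * s.natAbs ≤ _; omega
      · exact ((Int.prime_two.coprime_iff_not_dvd).mpr hr2).symm.mul_right hrs'.1
      · linear_combination -4 * hU + 4 * e - 588 * hq2

lemma sq_mod_seven {p q a : ℤ} (h : a ^ 2 = 294 * p ^ 2 * q ^ 2 - p ^ 4 + 343 * q ^ 4) :
    (7 : ℤ) ∣ p := by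
  have h' := congrArg (fun n : ℤ => (n : ZMod 7)) h
  push_cast at h'
  have : ∀ x y z : ZMod 7, z ^ 2 = 294 * x ^ 2 * y ^ 2 - x ^ 4 + 343 * y ^ 4 → x = 0 := by decide
  exact (ZMod.intCast_zmod_eq_zero_iff_dvd p 7).mp (this _ _ _ h')

/-- The quartic `C² = 4a⁴ - 147a²b² + 1372b⁴` has no nontrivial coprime points. -/
theorem quartic_false : ∀ (n : ℕ) (a b C : ℤ), b.natAbs = n → b ≠ 0 → IsCoprime a b →
    ¬(7 : ℤ) ∣ a → C ^ 2 ≠ 4 * a ^ 4 - 147 * a ^ 2 * b ^ 2 + 1372 * b ^ 4 := by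
  intro n
  induction n using Nat.strong_induction_on with
  | _ n ih =>
  intro a b C hn hb hab ha h
  wlog hC : 0 ≤ C generalizing C with H
  · exact H (-C) (by rw [neg_sq]; exact h) (by omega)
  have ha7 : ∀ {x y : ℤ}, (7 : ℤ) ∣ 8 * a ^ 2 * x - 147 * y → (7:ℤ) ∣ x := by
    intro x y h'
    have h7 : Prime (7 : ℤ) := prime_seven
    have : (7 : ℤ) ∣ 8 * a ^ 2 * x := by
      simpa using dvd_add h' (dvd_mul_of_dvd_left (show (7:ℤ) ∣ 147 by norm_num) y)
    rcases h7.dvd_or_dvd this with h'' | h''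
    · rcases h7.dvd_or_dvd h'' with h3 | h3
      · norm_num at h3
      · exact absurd (h7.dvd_of_dvd_pow h3) ha
    · exact h''
  rcases Int.even_or_odd b with ⟨b', hb'⟩ | hbodd
  · -- `b` even, in fact divisible by 4
    have hb2 : b = 2 * b' := by omega
    subst hb2
    obtain ⟨a1, ha1⟩ : Odd a := by
      rw [← Int.not_even_iff_odd]
      exact fun e => not_prime_both hab Int.prime_two e.two_dvd ⟨b', rfl⟩
    obtain ⟨C', rfl⟩ : (2 : ℤ) ∣ C := (Int.pow_dvd_pow_iff two_ne_zero).mp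
      ⟨a ^ 4 - 147 * a ^ 2 * b' ^ 2 + 5488 * b' ^ 4, by rw [h]; ring⟩
    have h' : C' ^ 2 = a ^ 4 - 147 * a ^ 2 * b' ^ 2 + 5488 * b' ^ 4 := by linarith
    obtain ⟨k, hk⟩ : Even b' := by
      rw [← Int.not_odd_iff_even]
      rintro ⟨b1, hb1⟩
      have h'' := congrArg (fun n : ℤ => (n : ZMod 8)) h'
      rw [ha1, hb1] at h''
      push_cast at h''
      revert h''
      generalize (a1 : ZMod 8) = x
      generalize (b1 : ZMod 8) = y
      generalize (C' : ZMod 8) = z
      revert x y z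
      decide
    have hk2 : b' = 2 * k := by omega
    subst hk2
    have hk0 : k ≠ 0 := by omega
    set U := a ^ 2 - 294 * k ^ 2 with hU
    have key : (C' - U) * (C' + U) = 4 * (343 * k ^ 4) := by linear_combination h'
    have hUodd : Odd U := by
      simp [hU, Int.odd_sub, Int.odd_pow, show Even (294:ℤ) by decide, ha1]
    have hCodd : Odd C' := by
      have : Even ((C' - U) * (C' + U)) := ⟨2 * (343 * k ^ 4), by rw [key]; ring⟩
      simp [Int.even_mul, Int.even_add, Int.even_sub, Int.not_even_iff_odd.mpr hUodd] at this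
      exact this
    obtain ⟨A, hA⟩ : Even (C' - U) := hCodd.sub_odd hUodd
    have hB : C' + U = 2 * (A + U) := by omega
    have hAB : A * (A + U) = 343 * k ^ 4 := by rw [hA, hB] at key; linarith
    have hkpos : 0 < k ^ 4 := by positivity
    have hpos : 0 < A ∧ 0 < A + U := by
      constructor <;> nlinarith
    have hc : IsCoprime A (A + U) := by
      refine isCoprime_of_prime_dvd (by omega) fun r hr h1 h2 => ?_
      have hrU : r ∣ U := by simpa using dvd_sub h2 h1
      rcases dvd_343_mul hr (hAB ▸ dvd_mul_of_dvd_left h1 (A + U)) with h3 | h3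
      · refine not_prime_both hab hr (hr.dvd_of_dvd_pow (n := 2) ?_)
          (dvd_mul_of_dvd_right (dvd_mul_of_dvd_right h3 _) _)
        simpa [hU] using dvd_add hrU (dvd_mul_of_dvd_right (dvd_pow h3 two_ne_zero) 294)
      · refine ha (prime_seven.dvd_of_dvd_pow (n := 2) ?_)
        have e := dvd_add (h3.trans hrU)
          (dvd_mul_of_dvd_left (show (7:ℤ) ∣ 294 by norm_num) (k ^ 2))
        rwa [show U + 294 * k ^ 2 = a ^ 2 by rw [hU]; ring] at e
    obtain ⟨p, q, hpq, hor⟩ := split_343 hpos.1 hpos.2 hc hAB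
    have hk2 : k ^ 2 = (p * q) ^ 2 := by
      rcases Int.natAbs_eq_natAbs_iff.mp hpq with e | e <;> simp [e]
    have hc2 : IsCoprime (p ^ 4) (343 * q ^ 4) := by
      rcases hor with h' | h'
      · rw [h'.2, h'.1] at hc; exact hc
      · rw [h'.2, h'.1] at hc; exact hc.symm
    have hp7 : ¬(7 : ℤ) ∣ p := fun h7 => prime_seven.not_isUnit
      (hc2.isUnit_of_dvd' (dvd_pow h7 (by norm_num)) (dvd_mul_of_dvd_left (by norm_num) _))
    have hp0 : p.natAbs ≠ 0 := by
      intro e; rw [Int.natAbs_mul, e, zero_mul] at hpq; omega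
    have hq0 : q ≠ 0 := by rintro rfl; simp at hpq; omega
    have hz : a ^ 2 = p ^ 4 + 294 * p ^ 2 * q ^ 2 - 343 * q ^ 4 := by
      rcases hor with ⟨h1, h2⟩ | ⟨h1, h2⟩
      · exact absurd (sq_mod_seven (p := p) (q := q) (a := a)
          (by linear_combination -hU + h2 - h1 + 294 * hk2)) hp7
      · linear_combination -hU + h2 - h1 + 294 * hk2
    have hle : q.natAbs ≤ k.natAbs := by
      rw [← hpq, Int.natAbs_mul]; exact Nat.le_mul_of_pos_left _ (Nat.pos_of_ne_zero hp0)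
    rcases descent_step ((IsCoprime.pow_iff (by norm_num) (by norm_num)).mp
        hc2.of_mul_right_right) hp7 hq0 hz with ⟨r, s, -, -, hrs, hc3, hr7, he⟩ |
        ⟨a', b', C'', hno, hle', hb0, hc3, ha', he⟩
    · have hs0 : s ≠ 0 := by rintro rfl; simp at hrs; omega
      have hr0 : r.natAbs ≠ 0 := by
        intro e; rw [Int.natAbs_mul, e, zero_mul] at hrs; omega
      have : s.natAbs ≤ q.natAbs := by
        rw [← hrs, Int.natAbs_mul]; exact Nat.le_mul_of_pos_left _ (Nat.pos_of_ne_zero hr0)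
      exact ih s.natAbs (by omega) r s p rfl hs0 hc3 hr7 he
    · exact ih b'.natAbs (by omega) a' b' C'' rfl hb0 hc3 ha' he
  · -- `b` odd
    set U := 8 * a ^ 2 - 147 * b ^ 2 with hU
    have key : (4 * C - U) * (4 * C + U) = 343 * b ^ 4 := by linear_combination 16 * h
    have hbpos : 0 < b ^ 4 := by positivity
    have hpos : 0 < 4 * C - U ∧ 0 < 4 * C + U := by
      constructor <;> nlinarith
    have hc : IsCoprime (4 * C - U) (4 * C + U) := by
      refine isCoprime_of_prime_dvd (by omega) fun r hr h1 h2 => ?_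
      have hr2 : ¬ r ∣ 2 := by
        intro h2'
        have : (2:ℤ) ∣ 343 * b ^ 4 := key ▸ dvd_mul_of_dvd_left ((prime_dvd_two hr h2').trans h1) _
        rw [← even_iff_two_dvd] at this
        simp [Int.even_mul, Int.even_pow, show ¬ Even (343:ℤ) by decide,
          Int.not_even_iff_odd.mpr hbodd] at this
      have hrU : r ∣ U := by
        have : r ∣ 2 * U := by
          have e := dvd_sub h2 h1
          rwa [show 4 * C + U - (4 * C - U) = 2 * U by ring] at e
        exact (hr.dvd_or_dvd this).resolve_left hr2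
      rcases dvd_343_mul hr (key ▸ dvd_mul_of_dvd_left h1 _) with h3 | h3
      · refine not_prime_both hab hr (hr.dvd_of_dvd_pow (n := 2) ?_) h3
        have e : r ∣ 8 * a ^ 2 := by
          simpa [hU] using dvd_add hrU (dvd_mul_of_dvd_right (dvd_pow h3 two_ne_zero) 147)
        exact (hr.dvd_or_dvd e).resolve_left fun h8 =>
          hr2 (hr.dvd_of_dvd_pow (n := 3) (by norm_num; exact h8))
      · have := ha7 (x := 1) (y := b ^ 2) (by simpa [hU] using h3.trans hrU)
        norm_num at this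
    obtain ⟨p, q, hpq, hor⟩ := split_343 hpos.1 hpos.2 hc key
    have hb2 : b ^ 2 = (p * q) ^ 2 := by
      rcases Int.natAbs_eq_natAbs_iff.mp hpq with e | e <;> simp [e]
    have hc2 : IsCoprime (p ^ 4) (343 * q ^ 4) := by
      rcases hor with h' | h'
      · rw [h'.2, h'.1] at hc; exact hc
      · rw [h'.2, h'.1] at hc; exact hc.symm
    have hp7 : ¬(7 : ℤ) ∣ p := fun h7 => prime_seven.not_isUnit
      (hc2.isUnit_of_dvd' (dvd_pow h7 (by norm_num)) (dvd_mul_of_dvd_left (by norm_num) _))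
    have hodd2 : Odd (p * q) := by rw [← Int.natAbs_odd, hpq, Int.natAbs_odd]; exact hbodd
    have hq0 : q ≠ 0 := by rintro rfl; simp at hpq; omega
    have hz : (4 * a) ^ 2 = p ^ 4 + 294 * p ^ 2 * q ^ 2 - 343 * q ^ 4 := by
      rcases hor with ⟨h1, h2⟩ | ⟨h1, h2⟩
      · exact absurd (sq_mod_seven (p := p) (q := q) (a := 4 * a)
          (by linear_combination h2 - h1 - 2 * hU + 294 * hb2)) hp7
      · linear_combination h2 - h1 - 2 * hU + 294 * hb2
    have hp0 : p.natAbs ≠ 0 := by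
      intro e; rw [Int.natAbs_mul, e, zero_mul] at hpq; omega
    rcases descent_step ((IsCoprime.pow_iff (by norm_num) (by norm_num)).mp
        hc2.of_mul_right_right) hp7 hq0 hz with ⟨r, s, hro, hso, hrs, hc3, hr7, he⟩ |
        ⟨a', b', C'', hno, hle', hb0, hc3, ha', he⟩
    · have hs0 : s ≠ 0 := by rintro rfl; simp at hrs; omega
      refine ih s.natAbs ?_ r s p rfl hs0 hc3 hr7 he
      -- `|b| = |p r s|`, and `|p r| ≠ 1`
      rw [← hn, ← hpq, Int.natAbs_mul, ← hrs, Int.natAbs_mul, ← mul_assoc]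
      have h1 : p.natAbs * r.natAbs ≠ 1 := by
        intro e
        obtain ⟨e1, e2⟩ := mul_eq_one.mp e
        have e1' : p ^ 2 = 1 := by rw [← Int.natAbs_sq p, e1]; norm_num
        have e2' : r ^ 2 = 1 := by rw [← Int.natAbs_sq r, e2]; norm_num
        have : 1 ≤ s ^ 2 := by
          have : 0 < s ^ 2 := by positivity
          omega
        have : r ^ 4 = 1 := by rw [show r ^ 4 = (r ^ 2) ^ 2 by ring, e2']; norm_num
        nlinarith
      have h2 : p.natAbs * r.natAbs ≠ 0 := by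
        refine mul_ne_zero hp0 ?_
        intro e; rw [Int.natAbs_mul, e, zero_mul] at hrs; omega
      exact lt_mul_left (by omega) (by omega)
    · exact hno (Int.odd_mul.mp hodd2)

/-! ### From the cubic to the quartic -/

/-- Homogeneous form of `y² = x (x² - 147 x + 5488)`. -/
theorem cubic_false {m f L : ℤ} (hm : m ≠ 0) (hf : f ≠ 0) (hcop : IsCoprime m f)
    (h7 : ¬(7 : ℤ) ∣ m) : L ^ 2 ≠ m * f * (4 * m ^ 2 - 147 * m * f + 1372 * f ^ 2) := by
  wlog hm0 : 0 < m generalizing m f with H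
  · intro h
    refine H (m := -m) (f := -f) (by omega) (by omega) hcop.neg_neg (by simpa using h7)
      (by omega) ?_
    rw [h]; ring
  intro h
  set R := 4 * m ^ 2 - 147 * m * f + 1372 * f ^ 2 with hR
  have hRpos : 0 < R := by nlinarith [sq_nonneg (8 * m - 147 * f), mul_self_pos.mpr hf]
  have hfpos : 0 < f := by
    by_contra hf'
    have : f < 0 := by omega
    nlinarith [sq_nonneg L, mul_neg_of_pos_of_neg hm0 this]
  have hmR : ∀ r : ℤ, Prime r → r ∣ m → r ∣ R → r ∣ 2 := by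
    intro r hr h1 h2
    have e : r ∣ 1372 * f ^ 2 := by
      have := dvd_sub h2 (dvd_mul_of_dvd_left h1 (4 * m - 147 * f))
      rwa [show R - m * (4 * m - 147 * f) = 1372 * f ^ 2 by rw [hR]; ring] at this
    rcases hr.dvd_or_dvd e with e | e
    · rcases hr.dvd_or_dvd (show r ∣ 2 ^ 2 * 7 ^ 3 by norm_num; exact e) with e | e
      · exact hr.dvd_of_dvd_pow e
      · exact absurd ((prime_dvd_seven hr (hr.dvd_of_dvd_pow e)).trans h1) h7
    · exact (not_prime_both hcop hr h1 (hr.dvd_of_dvd_pow e)).elim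
  have hfR : ∀ r : ℤ, Prime r → r ∣ f → r ∣ R → r ∣ 2 := by
    intro r hr h1 h2
    have e : r ∣ 4 * m ^ 2 := by
      have := dvd_sub h2 (dvd_mul_of_dvd_left h1 (1372 * f - 147 * m))
      rwa [show R - f * (1372 * f - 147 * m) = 4 * m ^ 2 by rw [hR]; ring] at this
    rcases hr.dvd_or_dvd e with e | e
    · exact hr.dvd_of_dvd_pow (n := 2) (by norm_num; exact e)
    · exact (not_prime_both hcop hr (hr.dvd_of_dvd_pow e) h1).elim
  rcases Int.even_or_odd m with ⟨k, hk⟩ | ⟨m1, hm1⟩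
  · -- `m` even, `f` odd
    obtain rfl : m = 2 * k := by omega
    have hkf : IsCoprime k f := hcop.of_mul_left_right
    have h2f : ¬(2 : ℤ) ∣ f := fun e => not_prime_both hcop Int.prime_two ⟨k, rfl⟩ e
    have hfc : IsCoprime f (2 * k * R) := by
      refine hcop.symm.mul_right (isCoprime_of_prime_dvd (by omega) fun r hr h1 h2 => ?_)
      exact h2f ((prime_dvd_two hr (hfR r hr h1 h2)).trans h1)
    obtain ⟨b, hb⟩ := eq_sq_of_mul hfpos.le hfc (k := L) (by rw [h]; ring)
    obtain ⟨L1, hL1⟩ := eq_sq_of_mul (by positivity) hfc.symm (k := L) (by rw [h]; ring)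
    obtain ⟨L', rfl⟩ : (2 : ℤ) ∣ L1 :=
      Int.prime_two.dvd_of_dvd_pow (n := 2) ⟨k * R, by rw [← hL1]; ring⟩
    have hkR : k * (8 * k ^ 2 - 147 * k * f + 686 * f ^ 2) = L' ^ 2 := by
      rw [hR] at hL1; linarith
    have hkR2 : ∀ r : ℤ, Prime r → r ∣ k → r ∣ 8 * k ^ 2 - 147 * k * f + 686 * f ^ 2 →
        r ∣ 2 := by
      intro r hr h1 h2
      obtain ⟨c, hc⟩ := h2
      exact hmR r hr (dvd_mul_of_dvd_right h1 _)
        ⟨2 * c, by rw [hR]; linear_combination 2 * hc⟩
    rcases Int.even_or_odd k with ⟨j, hj⟩ | ⟨k1, hk1⟩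
    · obtain rfl : k = 2 * j := by omega
      obtain ⟨L'', rfl⟩ : (2 : ℤ) ∣ L' :=
        Int.prime_two.dvd_of_dvd_pow (n := 2)
          ⟨j * (8 * (2 * j) ^ 2 - 147 * (2 * j) * f + 686 * f ^ 2), by rw [← hkR]; ring⟩
      have hjR : j * (16 * j ^ 2 - 147 * j * f + 343 * f ^ 2) = L'' ^ 2 := by linarith
      have hjc : IsCoprime j (16 * j ^ 2 - 147 * j * f + 343 * f ^ 2) := by
        refine isCoprime_of_prime_dvd (by omega) fun r hr h1 h2 => ?_
        have e : r ∣ 343 * f ^ 2 := by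
          have := dvd_sub h2 (dvd_mul_of_dvd_left h1 (16 * j - 147 * f))
          rwa [show 16 * j ^ 2 - 147 * j * f + 343 * f ^ 2 - j * (16 * j - 147 * f)
            = 343 * f ^ 2 by ring] at this
        rcases hr.dvd_or_dvd e with e | e
        · exact h7 (dvd_mul_of_dvd_right (dvd_mul_of_dvd_right ((prime_dvd_seven hr
            (hr.dvd_of_dvd_pow (n := 3) (by norm_num; exact e))).trans h1) _) _)
        · exact not_prime_both hkf hr (dvd_mul_of_dvd_right h1 _) (hr.dvd_of_dvd_pow e)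
      have hpos : 0 < 16 * j ^ 2 - 147 * j * f + 343 * f ^ 2 := by
        nlinarith [sq_nonneg (32 * j - 147 * f), mul_self_pos.mpr hf]
      obtain ⟨g, hg⟩ := eq_sq_of_mul (show (0:ℤ) ≤ j by omega) hjc hjR
      obtain ⟨c, hc⟩ := eq_sq_of_mul hpos.le hjc.symm (by rw [mul_comm]; exact hjR)
      subst hg hb
      refine quartic_false _ (2 * g) b (2 * c) rfl (fun e => hf (by simp [e])) ?_ ?_ ?_
      · have h2b : IsCoprime (2 : ℤ) b :=
          Int.prime_two.coprime_iff_not_dvd.mpr fun e => h2f (dvd_pow e two_ne_zero)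
        exact h2b.mul_left
          ((IsCoprime.pow_iff (m := 2) (n := 2) two_pos two_pos).mp hkf.of_mul_left_right)
      · intro e
        exact h7 (dvd_mul_of_dvd_right (dvd_mul_of_dvd_right
          (dvd_pow ((prime_seven.dvd_or_dvd e).resolve_left (by norm_num)) two_ne_zero) _) _)
      · linear_combination -4 * hc
    · have hkc : IsCoprime k (8 * k ^ 2 - 147 * k * f + 686 * f ^ 2) := by
        refine isCoprime_of_prime_dvd (by omega) fun r hr h1 h2 => ?_
        have := (prime_dvd_two hr (hkR2 r hr h1 h2)).trans h1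
        omega
      have hpos : 0 < 8 * k ^ 2 - 147 * k * f + 686 * f ^ 2 := by
        nlinarith [sq_nonneg (16 * k - 147 * f), mul_self_pos.mpr hf]
      obtain ⟨a, ha⟩ := eq_sq_of_mul (show (0:ℤ) ≤ k by omega) hkc hkR
      obtain ⟨c, hc⟩ := eq_sq_of_mul hpos.le hkc.symm (by rw [mul_comm]; exact hkR)
      obtain ⟨a1, ha1⟩ : Odd a := by
        have : Odd (a ^ 2) := ha ▸ ⟨k1, hk1⟩
        simpa [Int.odd_pow] using this
      obtain ⟨b1, hb1⟩ : Odd b := by
        have : Odd (b ^ 2) := hb ▸ Int.not_even_iff_odd.mp fun e => h2f e.two_dvd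
        simpa [Int.odd_pow] using this
      rw [ha, hb, ha1, hb1] at hc
      have h' := congrArg (fun n : ℤ => (n : ZMod 8)) hc
      push_cast at h'
      revert h'
      generalize (a1 : ZMod 8) = x
      generalize (b1 : ZMod 8) = y
      generalize (c : ZMod 8) = z
      revert x y z
      decide
  · -- `m` odd
    have h2m : ¬(2 : ℤ) ∣ m := by omega
    have hmc : IsCoprime m (f * R) := by
      refine hcop.mul_right (isCoprime_of_prime_dvd (by omega) fun r hr h1 h2 => ?_)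
      exact h2m ((prime_dvd_two hr (hmR r hr h1 h2)).trans h1)
    obtain ⟨a, ha⟩ := eq_sq_of_mul hm0.le hmc (k := L) (by rw [h]; ring)
    obtain ⟨L1, hL1⟩ := eq_sq_of_mul (by positivity) hmc.symm (k := L) (by rw [h]; ring)
    obtain ⟨a1, ha1⟩ : Odd a := by
      have : Odd (a ^ 2) := ha ▸ ⟨m1, hm1⟩
      simpa [Int.odd_pow] using this
    rcases Int.even_or_odd f with ⟨k, hk⟩ | ⟨f1, hf1⟩
    · obtain rfl : f = 2 * k := by omega
      obtain ⟨L', rfl⟩ : (2 : ℤ) ∣ L1 :=
        Int.prime_two.dvd_of_dvd_pow (n := 2) ⟨k * R, by rw [← hL1]; ring⟩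
      have hkR : k * (2 * m ^ 2 - 147 * m * k + 2744 * k ^ 2) = L' ^ 2 := by
        rw [hR] at hL1; linarith
      have hmk : IsCoprime m k := hcop.of_mul_right_right
      have hkm : ∀ r : ℤ, Prime r → r ∣ k → r ∣ 2 * m ^ 2 - 147 * m * k + 2744 * k ^ 2 →
          r ∣ 2 := by
        intro r hr h1 h2
        have e : r ∣ 2 * m ^ 2 := by
          have := dvd_sub h2 (dvd_mul_of_dvd_left h1 (2744 * k - 147 * m))
          rwa [show 2 * m ^ 2 - 147 * m * k + 2744 * k ^ 2 - k * (2744 * k - 147 * m)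
            = 2 * m ^ 2 by ring] at this
        exact (hr.dvd_or_dvd e).resolve_right fun e =>
          not_prime_both hmk hr (hr.dvd_of_dvd_pow e) h1
      rcases Int.even_or_odd k with ⟨j, hj⟩ | ⟨k1, hk1⟩
      · obtain rfl : k = 2 * j := by omega
        obtain ⟨L'', rfl⟩ : (2 : ℤ) ∣ L' :=
          Int.prime_two.dvd_of_dvd_pow (n := 2)
            ⟨j * (2 * m ^ 2 - 147 * m * (2 * j) + 2744 * (2 * j) ^ 2), by rw [← hkR]; ring⟩
        have hjR : j * (m ^ 2 - 147 * m * j + 5488 * j ^ 2) = L'' ^ 2 := by linarith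
        have hjc : IsCoprime j (m ^ 2 - 147 * m * j + 5488 * j ^ 2) := by
          refine isCoprime_of_prime_dvd (by omega) fun r hr h1 h2 => ?_
          have e : r ∣ m ^ 2 := by
            have := dvd_sub h2 (dvd_mul_of_dvd_left h1 (5488 * j - 147 * m))
            rwa [show m ^ 2 - 147 * m * j + 5488 * j ^ 2 - j * (5488 * j - 147 * m)
              = m ^ 2 by ring] at this
          exact not_prime_both hmk hr (hr.dvd_of_dvd_pow e) (dvd_mul_of_dvd_right h1 _)
        have hpos : 0 < m ^ 2 - 147 * m * j + 5488 * j ^ 2 := by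
          nlinarith [sq_nonneg (2 * m - 147 * j), mul_self_pos.mpr hm]
        obtain ⟨g, hg⟩ := eq_sq_of_mul (show (0:ℤ) ≤ j by omega) hjc hjR
        obtain ⟨c, hc⟩ := eq_sq_of_mul hpos.le hjc.symm (by rw [mul_comm]; exact hjR)
        subst hg ha
        refine quartic_false _ a (2 * g) (2 * c) rfl (fun e => hf (by
          rw [show (2:ℤ) * (2 * g ^ 2) = 2 * g * (2 * g) by ring, e, mul_zero])) ?_ ?_ ?_
        · have h2a : IsCoprime a (2 : ℤ) :=
            (Int.prime_two.coprime_iff_not_dvd.mpr fun e => h2m (dvd_pow e two_ne_zero)).symm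
          exact h2a.mul_right
            ((IsCoprime.pow_iff (m := 2) (n := 2) two_pos two_pos).mp hmk.of_mul_right_right)
        · exact fun e => h7 (dvd_pow e two_ne_zero)
        · linear_combination -4 * hc
      · have hkc : IsCoprime k (2 * m ^ 2 - 147 * m * k + 2744 * k ^ 2) := by
          refine isCoprime_of_prime_dvd (by omega) fun r hr h1 h2 => ?_
          have := (prime_dvd_two hr (hkm r hr h1 h2)).trans h1
          omega
        have hpos : 0 < 2 * m ^ 2 - 147 * m * k + 2744 * k ^ 2 := by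
          nlinarith [sq_nonneg (4 * m - 147 * k), mul_self_pos.mpr hm]
        obtain ⟨b, hb⟩ := eq_sq_of_mul (show (0:ℤ) ≤ k by omega) hkc hkR
        obtain ⟨c, hc⟩ := eq_sq_of_mul hpos.le hkc.symm (by rw [mul_comm]; exact hkR)
        obtain ⟨b1, hb1⟩ : Odd b := by
          have : Odd (b ^ 2) := hb ▸ ⟨k1, hk1⟩
          simpa [Int.odd_pow] using this
        rw [ha, hb, ha1, hb1] at hc
        have h' := congrArg (fun n : ℤ => (n : ZMod 8)) hc
        push_cast at h'
        revert h'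
        generalize (a1 : ZMod 8) = x
        generalize (b1 : ZMod 8) = y
        generalize (c : ZMod 8) = z
        revert x y z
        decide
    · have hfc : IsCoprime f R := by
        refine isCoprime_of_prime_dvd (by omega) fun r hr h1 h2 => ?_
        have := (prime_dvd_two hr (hfR r hr h1 h2)).trans h1
        omega
      obtain ⟨b, hb⟩ := eq_sq_of_mul hfpos.le hfc hL1
      obtain ⟨c, hc⟩ := eq_sq_of_mul hRpos.le hfc.symm (k := L1) (by rw [mul_comm]; exact hL1)
      obtain ⟨b1, hb1⟩ : Odd b := by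
        have : Odd (b ^ 2) := hb ▸ ⟨f1, hf1⟩
        simpa [Int.odd_pow] using this
      rw [hR, ha, hb, ha1, hb1] at hc
      have h' := congrArg (fun n : ℤ => (n : ZMod 8)) hc
      push_cast at h'
      revert h'
      generalize (a1 : ZMod 8) = x
      generalize (b1 : ZMod 8) = y
      generalize (c : ZMod 8) = z
      revert x y z
      decide

/-- `7 v w² = 4 v² - 21 v + 28` has no solution. -/
theorem rat_point_false (v w : ℚ) : 7 * v * w ^ 2 ≠ 4 * v ^ 2 - 21 * v + 28 := by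
  intro h
  have hv0 : v ≠ 0 := by rintro rfl; norm_num at h
  obtain ⟨m, e, he, hcop, rfl⟩ : ∃ m e : ℤ, e ≠ 0 ∧ IsCoprime m e ∧ v = m / e :=
    ⟨v.num, v.den, by exact_mod_cast v.den_ne_zero,
      Int.isCoprime_iff_nat_coprime.mpr (by simpa using v.reduced), (Rat.num_div_den v).symm⟩
  have hm : m ≠ 0 := by rintro rfl; simp at hv0
  have heQ : (e : ℚ) ≠ 0 := by exact_mod_cast he
  have key : ((7 : ℚ) * m * w * e) ^ 2
      = ((7 * m * e * (4 * m ^ 2 - 21 * m * e + 28 * e ^ 2) : ℤ) : ℚ) := by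
    field_simp at h
    push_cast
    linear_combination (7 * (m : ℚ) * e) * h
  obtain ⟨K, hK⟩ : IsSquare (7 * m * e * (4 * m ^ 2 - 21 * m * e + 28 * e ^ 2)) :=
    Rat.isSquare_intCast_iff.mp (key ▸ IsSquare.sq _)
  have h7K : (7 : ℤ) ∣ K :=
    (prime_seven.dvd_or_dvd ⟨m * e * (4 * m ^ 2 - 21 * m * e + 28 * e ^ 2), by rw [← hK]; ring⟩).elim
      id id
  obtain ⟨K', rfl⟩ := h7K
  by_cases h7 : (7 : ℤ) ∣ m
  · obtain ⟨k, rfl⟩ := h7
    have h7e : ¬(7 : ℤ) ∣ e := fun h' => not_prime_both hcop prime_seven ⟨k, rfl⟩ h'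
    obtain ⟨K'', rfl⟩ : (7 : ℤ) ∣ K' :=
      prime_seven.dvd_of_dvd_pow (n := 2)
        ⟨k * e * (28 * k ^ 2 - 21 * k * e + 4 * e ^ 2), by linarith⟩
    obtain ⟨f, rfl⟩ : (7 : ℤ) ∣ k := by
      have hd : (7 : ℤ) ∣ k * e * (28 * k ^ 2 - 21 * k * e + 4 * e ^ 2) :=
        ⟨K'' ^ 2, by linarith⟩
      rcases prime_seven.dvd_or_dvd hd with hd | hd
      · exact (prime_seven.dvd_or_dvd hd).resolve_right h7e
      · have e4 : (7 : ℤ) ∣ 4 * e ^ 2 := by
          have := dvd_sub hd (Dvd.intro (4 * k ^ 2 - 3 * k * e) rfl)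
          rwa [show 28 * k ^ 2 - 21 * k * e + 4 * e ^ 2 - 7 * (4 * k ^ 2 - 3 * k * e)
            = 4 * e ^ 2 by ring] at this
        rcases prime_seven.dvd_or_dvd e4 with e4 | e4
        · norm_num at e4
        · exact absurd (prime_seven.dvd_of_dvd_pow e4) h7e
    refine cubic_false (L := K'') he (show f ≠ 0 by rintro rfl; simp at hm) ?_ h7e ?_
    · exact hcop.symm.of_mul_right_right.of_mul_right_right
    · linarith
  · obtain ⟨f, rfl⟩ : (7 : ℤ) ∣ e := by
      have hd : (7 : ℤ) ∣ m * e * (4 * m ^ 2 - 21 * m * e + 28 * e ^ 2) :=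
        ⟨K' ^ 2, by linarith⟩
      rcases prime_seven.dvd_or_dvd hd with hd | hd
      · exact (prime_seven.dvd_or_dvd hd).resolve_left h7
      · have e4 : (7 : ℤ) ∣ 4 * m ^ 2 := by
          have := dvd_sub hd (Dvd.intro (4 * e ^ 2 - 3 * m * e) rfl)
          rwa [show 4 * m ^ 2 - 21 * m * e + 28 * e ^ 2 - 7 * (4 * e ^ 2 - 3 * m * e)
            = 4 * m ^ 2 by ring] at this
        rcases prime_seven.dvd_or_dvd e4 with e4 | e4
        · norm_num at e4
        · exact absurd (prime_seven.dvd_of_dvd_pow e4) h7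
    exact cubic_false (L := K') hm (show f ≠ 0 by rintro rfl; simp at he)
      hcop.of_mul_right_right h7 (by linarith)

/-- Genocchi: Fermat's Last Theorem for exponent 7 over `ℚ`. -/
theorem fermat_seven_rat {x y z : ℚ} (hx : x ≠ 0) (hy : y ≠ 0) (hz : z ≠ 0) :
    x ^ 7 + y ^ 7 + z ^ 7 ≠ 0 := by
  intro h
  have key : (x + y + z) ^ 7 = 7 * ((x + y) * (y + z) * (z + x)) *
      ((x ^ 2 + y ^ 2 + z ^ 2 + x * y + y * z + z * x) ^ 2 + x * y * z * (x + y + z)) := by
    linear_combination h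
  rcases eq_or_ne (x + y + z) 0 with hp | hp
  · obtain rfl : z = -(x + y) := by linarith
    rw [hp, zero_pow (by norm_num)] at key
    have hq : 0 < x ^ 2 + x * y + y ^ 2 := by nlinarith [mul_self_pos.mpr hx, sq_nonneg (x + 2 * y)]
    have : 7 * x * y * -(x + y) * (x ^ 2 + x * y + y ^ 2) ^ 2 = 0 := by linear_combination h
    exact mul_ne_zero (mul_ne_zero (mul_ne_zero (mul_ne_zero (by norm_num) hx) hy) hz)
      (pow_ne_zero 2 hq.ne') this
  · set p := x + y + z with hp'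
    set u := (x + y) * (y + z) * (z + x) / p ^ 3 with hu
    set q := (x * y + y * z + z * x) / p ^ 2 with hq
    refine rat_point_false (7 * u) (2 * q - 1) ?_
    have hA : u * p ^ 3 = (x + y) * (y + z) * (z + x) := div_mul_cancel₀ _ (pow_ne_zero 3 hp)
    have hB : q * p ^ 2 = x * y + y * z + z * x := div_mul_cancel₀ _ (pow_ne_zero 2 hp)
    have hpq : p ^ 7 = 7 * (u * p ^ 3) * (p ^ 4 * (q ^ 2 - q + 1 - u)) := by
      rw [hA, key]
      have hr : x * y * z = p * (q * p ^ 2) - u * p ^ 3 := by rw [hA, hB, hp']; ring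
      rw [show x ^ 2 + y ^ 2 + z ^ 2 + x * y + y * z + z * x = p ^ 2 - q * p ^ 2 by
        rw [hB, hp']; ring, hr]
      ring
    have h1 : 1 = 7 * u * (q ^ 2 - q + 1 - u) :=
      mul_left_cancel₀ (pow_ne_zero 7 hp) (by linear_combination hpq)
    linear_combination -28 * h1

/-- Fermat's Last Theorem for exponent 7. -/
theorem fermat_seven {a b c : ℤ} (ha : a ≠ 0) (hb : b ≠ 0) (hc : c ≠ 0) :
    a ^ 7 + b ^ 7 ≠ c ^ 7 := by
  intro h
  refine fermat_seven_rat (Int.cast_ne_zero.mpr ha) (Int.cast_ne_zero.mpr hb)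
    (z := -(c : ℚ)) (neg_ne_zero.mpr (Int.cast_ne_zero.mpr hc)) ?_
  have h' : (a : ℚ) ^ 7 + (b : ℚ) ^ 7 = (c : ℚ) ^ 7 := by exact_mod_cast h
  linear_combination h'

end Fermat.Agent.Small7
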